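/-
S17 / WMW-COC  (Mathlib only).  Abstract descent: if one subgroup `H` of finite index fixes every "half" `y` of every invariant
element, the 2-torsion is finite and the group is 2-divisible, then `Γ / 2Γ` is finite (`Γ = J^G`).

PROOF.  Choose `y c` with `2 • y c = c`.  `Φ c : G ⧸ H → T`, `g H ↦ g • y c - y c` (well defined as `H` fixes `y c`; values in `T = J[2]` as `c` is invariant).
If `Φ c = Φ c'` then `y c - y c'` is invariant and `c - c' = 2 (y c - y c')`.  The target is finite.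
-/
import Mathlib

set_option autoImplicit false

namespace Fermat.Agent.S17.WMW

/-- a quotient is finite as soon as a map to a finite type separates the cosets -/
theorem finite_quotient_of_map {Γ X : Type*} [AddCommGroup Γ] [Finite X] (A : AddSubgroup Γ) (Φ : Γ → X)
    (h : ∀ c c' : Γ, Φ c = Φ c' → c - c' ∈ A) : Finite (Γ ⧸ A) := by
  classical
  let ψ : Set.range Φ → Γ ⧸ A := fun x => QuotientAddGroup.mk x.2.choose
  refine Finite.of_surjective ψ ?_
  intro q
  obtain ⟨c, rfl⟩ := QuotientAddGroup.mk_surjective q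
  refine ⟨⟨Φ c, c, rfl⟩, ?_⟩
  have h1 : Φ (Exists.choose (⟨c, rfl⟩ : ∃ y, Φ y = Φ c)) = Φ c :=
    Exists.choose_spec (⟨c, rfl⟩ : ∃ y, Φ y = Φ c)
  have h2 := h _ _ h1.symm
  change (QuotientAddGroup.mk _ : Γ ⧸ A) = QuotientAddGroup.mk c
  rw [QuotientAddGroup.eq]
  have e : -(Exists.choose (⟨c, rfl⟩ : ∃ y, Φ y = Φ c)) + c
      = c - (Exists.choose (⟨c, rfl⟩ : ∃ y, Φ y = Φ c)) := by abel
  rw [e]
  exact h2

theorem finite_quot_of_common_kernel {G J : Type*} [Group G] [AddCommGroup J] [DistribMulAction G J]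
    (hT : {t : J | (2 : ℕ) • t = 0}.Finite)
    (hdiv : ∀ c : J, ∃ y : J, (2 : ℕ) • y = c)
    (H : Subgroup G) (hH : H.FiniteIndex)
    (hkill : ∀ y : J, (∀ σ : G, σ • ((2 : ℕ) • y) = (2 : ℕ) • y) → ∀ σ ∈ H, σ • y = y) :
    Finite (↥(FixedPoints.addSubgroup G J) ⧸
      (zsmulAddGroupHom (α := ↥(FixedPoints.addSubgroup G J)) 2).range) := by
  classical
  choose y hy using hdiv
  have : Finite {t : J | (2 : ℕ) • t = 0} := hT
  have : Finite (G ⧸ H) := Subgroup.finite_quotient_of_finiteIndex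
  have hinv : ∀ c : ↥(FixedPoints.addSubgroup G J), ∀ σ : G, σ • (c : J) = c := fun c σ => c.2 σ
  have hfix : ∀ c : ↥(FixedPoints.addSubgroup G J), ∀ σ ∈ H, σ • y c = y c := fun c =>
    hkill (y c) (fun σ => by rw [hy]; exact hinv c σ)
  let Φ : ↥(FixedPoints.addSubgroup G J) → (G ⧸ H → {t : J | (2 : ℕ) • t = 0}) := fun c q =>
    ⟨q.out • y c - y c, by
      change (2 : ℕ) • (q.out • y c - y c) = 0
      rw [smul_sub, smul_comm, hy, hinv c, sub_self]⟩
  refine finite_quotient_of_map _ Φ ?_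
  intro c c' hcc
  have key : ∀ g : G, g • (y c - y c') = y c - y c' := by
    intro g
    obtain ⟨h, hh⟩ := QuotientGroup.mk_out_eq_mul H g
    have h1 : ∀ d : ↥(FixedPoints.addSubgroup G J),
        ((g : G ⧸ H).out) • y d = g • y d := by
      intro d
      rw [hh, mul_smul, hfix d h h.2]
    have h2 := congrArg Subtype.val (congrFun hcc (g : G ⧸ H))
    change ((g : G ⧸ H).out) • y c - y c = ((g : G ⧸ H).out) • y c' - y c' at h2
    rw [h1, h1] at h2
    rw [smul_sub]
    have : g • y c - g • y c' = (g • y c - y c) - (g • y c' - y c') + (y c - y c') := by abel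
    rw [this, h2, sub_self, zero_add]
  refine ⟨⟨y c - y c', key⟩, ?_⟩
  apply Subtype.ext
  change (2 : ℤ) • (y c - y c') = (c : J) - c'
  have e1 : y c + y c = (c : J) := by rw [← two_smul ℕ]; exact hy c
  have e2 : y c' + y c' = (c' : J) := by rw [← two_smul ℕ]; exact hy c'
  calc (2 : ℤ) • (y c - y c') = (y c + y c) - (y c' + y c') := by rw [two_smul]; abel
    _ = (c : J) - c' := by rw [e1, e2]

end Fermat.Agent.S17.WMW
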