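/-
S17 / WMW-KUM  (Mathlib only).  The Kummer step of weak Mordell-Weil, abstract in the `G_ℚ`-module `J` and in the set `I` of
"inertia elements outside `S`".

`T = J[2]` finite, every `y : J` has an open stabiliser, `τ ∈ I` fixes `y` as soon as `τ y - y ∈ T`  (criterion of Néron-Ogg-Shafarevich type),
and (`hfin`) for every number field `L` fixed by `I` the square roots of elements of `L` which are fixed by `I` lie in ONE number field `L1`.
THEN one number field `K` works for all halves `y` of invariant elements.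

PROOF.  `StabT` = pointwise stabiliser of `T` (open), `L` = its fixed field, `I ⊆ StabT`.  `K = L ⊔ L1`.  Let `2y` be invariant, `κ h = h y - y ∈ T`,
additive on `StabT`.  If `σ ∈ Fix K`, `κ σ ≠ 0`, take `φ : T → ℤ/2` additive with `φ (κ σ) ≠ 0`, `χ = φ ∘ κ`, `U1 = ker χ ⊆ StabT` (open, so closed),
`x` fixed by `U1` with `σ x ≠ x`, `a = x - σ x`: `h a = ± a` for `h ∈ StabT` according to `χ h`; so `a² ∈ L`, `I` fixes `a`, hence `a ∈ L1`, `σ a = a`;
but `σ a = - a`.
-/
import Mathlib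

set_option autoImplicit false

namespace Fermat.Agent.S17.WMW

local notation "Qb" => AlgebraicClosure ℚ
local notation "GQ" => (AlgebraicClosure ℚ ≃ₐ[ℚ] AlgebraicClosure ℚ)

open IntermediateField

theorem kumAux_finDim_of_le {K L : IntermediateField ℚ Qb} (h : K ≤ L) (hL : FiniteDimensional ℚ L) :
    FiniteDimensional ℚ K :=
  FiniteDimensional.of_injective (IntermediateField.inclusion h).toLinearMap
    (IntermediateField.inclusion h).injective

theorem kumAux_isGalois : IsGalois ℚ Qb := by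
  have : Algebra.IsAlgebraic ℚ Qb := AlgebraicClosure.isAlgebraic ℚ
  have : IsAlgClosure ℚ Qb := ⟨inferInstance, this⟩
  have : Normal ℚ Qb := IsAlgClosure.normal ℚ Qb
  exact {}

/-- a subgroup containing an open subgroup is the fixing subgroup of its fixed field -/
theorem fixing_fixed_of_le {U : Subgroup GQ} {K : IntermediateField ℚ Qb} (hK : FiniteDimensional ℚ K)
    (h : K.fixingSubgroup ≤ U) : (fixedField U).fixingSubgroup = U := by
  have h1 : IsOpen (U : Set GQ) := Subgroup.isOpen_mono h (K.fixingSubgroup_isOpen)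
  have h2 : IsClosed (U : Set GQ) := U.isClosed_of_isOpen h1
  have := kumAux_isGalois
  exact InfiniteGalois.fixingSubgroup_fixedField (⟨U, h2⟩ : ClosedSubgroup GQ)

theorem fixedField_le_of_le {U : Subgroup GQ} {K : IntermediateField ℚ Qb}
    (h : K.fixingSubgroup ≤ U) : fixedField U ≤ K := by
  have h1 := fixedField_antitone h
  have := kumAux_isGalois
  rwa [InfiniteGalois.fixedField_fixingSubgroup] at h1

/-- characters separate the points of an elementary abelian 2-group -/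
theorem exists_char_two {J : Type*} [AddCommGroup J] {t0 : J} (h2 : (2 : ℕ) • t0 = 0) (h0 : t0 ≠ 0) :
    ∃ φ : J → ZMod 2, (∀ a b : J, (2 : ℕ) • a = 0 → (2 : ℕ) • b = 0 → φ (a + b) = φ a + φ b) ∧
      φ t0 ≠ 0 := by
  classical
  let A : AddSubgroup J :=
    { carrier := {t | (2 : ℕ) • t = 0}
      zero_mem' := smul_zero _
      add_mem' := fun {a b} ha hb => by
        change (2 : ℕ) • (a + b) = 0
        rw [smul_add, ha, hb, add_zero]
      neg_mem' := fun {a} ha => by
        change (2 : ℕ) • (-a) = 0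
        rw [smul_neg, ha, neg_zero] }
  let _ : Module (ZMod 2) A := AddCommGroup.zmodModule (n := 2) (fun x => Subtype.ext x.2)
  have hne : (⟨t0, h2⟩ : A) ≠ 0 := fun h => h0 (congrArg Subtype.val h)
  have hex : ∃ ψ : Module.Dual (ZMod 2) A, ψ ⟨t0, h2⟩ ≠ 0 := by
    by_contra hcon
    push Not at hcon
    exact hne ((Module.forall_dual_apply_eq_zero_iff (ZMod 2) _).1 hcon)
  obtain ⟨ψ, hψ⟩ := hex
  refine ⟨fun t => if h : (2 : ℕ) • t = 0 then ψ ⟨t, h⟩ else 0, ?_, ?_⟩
  · intro a b ha hb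
    have hab : (2 : ℕ) • (a + b) = 0 := by rw [smul_add, ha, hb, add_zero]
    simp only [dif_pos ha, dif_pos hb, dif_pos hab]
    exact map_add ψ ⟨a, ha⟩ ⟨b, hb⟩
  · simp only [dif_pos h2]
    exact hψ

theorem exists_kill {J : Type*} [AddCommGroup J] [DistribMulAction GQ J] (I : Set GQ)
    (hT : {t : J | (2 : ℕ) • t = 0}.Finite)
    (hsm : ∀ y : J, ∃ K : IntermediateField ℚ Qb, FiniteDimensional ℚ K ∧
      ∀ σ ∈ K.fixingSubgroup, σ • y = y)
    (hur : ∀ τ ∈ I, ∀ y : J, (2 : ℕ) • (τ • y - y) = 0 → τ • y = y)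
    (hfin : ∀ L : IntermediateField ℚ Qb, FiniteDimensional ℚ L → (∀ τ ∈ I, ∀ x ∈ L, τ x = x) →
      ∃ L1 : IntermediateField ℚ Qb, FiniteDimensional ℚ L1 ∧
        ∀ a : Qb, a ^ 2 ∈ L → (∀ τ ∈ I, τ a = a) → a ∈ L1) :
    ∃ K : IntermediateField ℚ Qb, FiniteDimensional ℚ K ∧
      ∀ y : J, (∀ σ : GQ, σ • ((2 : ℕ) • y) = (2 : ℕ) • y) → ∀ σ ∈ K.fixingSubgroup, σ • y = y := by
  classical
  -- the stabiliser of `T`
  let StabT : Subgroup GQ :=
    { carrier := {σ | ∀ t : J, (2 : ℕ) • t = 0 → σ • t = t}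
      one_mem' := fun t _ => one_smul _ t
      mul_mem' := fun {a b} ha hb t ht => by rw [mul_smul, hb t ht, ha t ht]
      inv_mem' := fun {a} ha t ht => by rw [inv_smul_eq_iff, ha t ht] }
  have hStab : ∀ σ : GQ, σ ∈ StabT ↔ ∀ t : J, (2 : ℕ) • t = 0 → σ • t = t := fun _ => Iff.rfl
  choose Kl hKl1 hKl2 using hsm
  let K0 : IntermediateField ℚ Qb := ⨆ t ∈ hT.toFinset, Kl t
  have hK0 : FiniteDimensional ℚ K0 := finiteDimensional_iSup_of_finset' (fun t _ => hKl1 t)
  have hK0le : K0.fixingSubgroup ≤ StabT := by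
    intro σ hσ t ht
    refine hKl2 t σ ?_
    refine IntermediateField.fixingSubgroup_antitone ?_ hσ
    exact le_iSup₂_of_le t (hT.mem_toFinset.2 ht) le_rfl
  let L : IntermediateField ℚ Qb := fixedField StabT
  have hL : FiniteDimensional ℚ L := kumAux_finDim_of_le (fixedField_le_of_le hK0le) hK0
  have hLfix : L.fixingSubgroup = StabT := fixing_fixed_of_le hK0 hK0le
  have hI : ∀ τ ∈ I, τ ∈ StabT := by
    intro τ hτ t ht
    refine hur τ hτ t ?_
    rw [smul_sub, smul_comm, ht, smul_zero, sub_zero]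
  obtain ⟨L1, hL1, hL1'⟩ := hfin L hL (fun τ hτ x hx => (mem_fixedField_iff _ _).1 hx τ (hI τ hτ))
  refine ⟨L ⊔ L1, finiteDimensional_sup L L1, ?_⟩
  intro y hy σ hσ
  have hσS : σ ∈ StabT := by
    rw [← hLfix]
    exact IntermediateField.fixingSubgroup_antitone le_sup_left hσ
  have hσ1 : ∀ a ∈ L1, σ a = a := fun a ha =>
    (IntermediateField.mem_fixingSubgroup_iff _ _).1 hσ a ((le_sup_right : L1 ≤ L ⊔ L1) ha)
  by_contra hne
  have hκ2 : ∀ h : GQ, (2 : ℕ) • (h • y - y) = 0 := by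
    intro h
    rw [smul_sub, smul_comm, hy h, sub_self]
  have hκmul : ∀ h h' : GQ, h ∈ StabT → (h * h') • y - y = (h • y - y) + (h' • y - y) := by
    intro h h' hh
    have := hh _ (hκ2 h')
    rw [smul_sub] at this
    rw [mul_smul]
    have e : h • h' • y - y = (h • h' • y - h • y) + (h • y - y) := by abel
    rw [e, this]
    abel
  obtain ⟨φ, hφadd, hφ0⟩ := exists_char_two (hκ2 σ) (sub_ne_zero.2 hne)
  have hφz : φ 0 = 0 := by
    have := hφadd 0 0 (smul_zero _) (smul_zero _)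
    rw [add_zero] at this
    exact (add_eq_left.1 this.symm)
  let χ : GQ → ZMod 2 := fun h => φ (h • y - y)
  have hχmul : ∀ h h' : GQ, h ∈ StabT → χ (h * h') = χ h + χ h' := by
    intro h h' hh
    change φ _ = φ _ + φ _
    rw [hκmul h h' hh, hφadd _ _ (hκ2 h) (hκ2 h')]
  have hχ1 : χ 1 = 0 := by
    change φ _ = 0
    rw [one_smul, sub_self, hφz]
  have hχinv : ∀ h ∈ StabT, χ h⁻¹ = - χ h := by
    intro h hh
    have := hχmul h h⁻¹ hh
    rw [mul_inv_cancel, hχ1] at this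
    exact (neg_eq_of_add_eq_zero_right this.symm).symm
  let U1 : Subgroup GQ :=
    { carrier := {h | h ∈ StabT ∧ χ h = 0}
      one_mem' := ⟨StabT.one_mem, hχ1⟩
      mul_mem' := fun {a b} ha hb => ⟨StabT.mul_mem ha.1 hb.1, by rw [hχmul a b ha.1, ha.2, hb.2, add_zero]⟩
      inv_mem' := fun {a} ha => ⟨StabT.inv_mem ha.1, by rw [hχinv a ha.1, ha.2, neg_zero]⟩ }
  have hU1 : ∀ h : GQ, h ∈ U1 ↔ h ∈ StabT ∧ χ h = 0 := fun _ => Iff.rfl
  have hopen : (Kl y ⊔ L).fixingSubgroup ≤ U1 := by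
    intro h hh
    refine ⟨?_, ?_⟩
    · rw [← hLfix]
      exact IntermediateField.fixingSubgroup_antitone le_sup_right hh
    · change φ _ = 0
      rw [hKl2 y h (IntermediateField.fixingSubgroup_antitone le_sup_left hh), sub_self, hφz]
  have := hKl1 y
  have hU1fix : (fixedField U1).fixingSubgroup = U1 :=
    fixing_fixed_of_le (finiteDimensional_sup (Kl y) L) hopen
  have hσχ : χ σ = 1 := by
    have h01 : ∀ z : ZMod 2, z = 0 ∨ z = 1 := by decide
    exact (h01 (χ σ)).resolve_left hφ0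
  have hσU : σ ∉ U1 := fun h => hφ0 h.2
  obtain ⟨x, hx, hxσ⟩ : ∃ x ∈ fixedField U1, σ x ≠ x := by
    by_contra hcon
    push Not at hcon
    apply hσU
    rw [← hU1fix]
    exact (IntermediateField.mem_fixingSubgroup_iff _ _).2 hcon
  have hxU : ∀ h ∈ U1, h x = x := (mem_fixedField_iff _ _).1 hx
  have h11 : (1 : ZMod 2) + 1 = 0 := by decide
  have hn1 : -(1 : ZMod 2) + 1 = 0 := by decide
  have hA : ∀ h ∈ StabT, χ h = 0 → h (x - σ x) = x - σ x := by
    intro h hh h0
    have h1 : h x = x := hxU h ⟨hh, h0⟩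
    have h2 : (σ⁻¹ * (h * σ)) x = x := by
      refine hxU _ ⟨StabT.mul_mem (StabT.inv_mem hσS) (StabT.mul_mem hh hσS), ?_⟩
      rw [hχmul _ _ (StabT.inv_mem hσS), hχmul _ _ hh, hχinv σ hσS, h0, hσχ, zero_add, hn1]
    have h3 : h (σ x) = σ x := by
      have := congrArg σ h2
      rw [AlgEquiv.mul_apply, AlgEquiv.mul_apply] at this
      have e : σ (σ⁻¹ (h (σ x))) = h (σ x) := by
        rw [← AlgEquiv.mul_apply, mul_inv_cancel, AlgEquiv.one_apply]
      rwa [e] at this
    rw [map_sub, h1, h3]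
  have hB : ∀ h ∈ StabT, χ h = 1 → h (x - σ x) = -(x - σ x) := by
    intro h hh h0
    have h1 : (σ⁻¹ * h) x = x := by
      refine hxU _ ⟨StabT.mul_mem (StabT.inv_mem hσS) hh, ?_⟩
      rw [hχmul _ _ (StabT.inv_mem hσS), hχinv σ hσS, h0, hσχ, hn1]
    have h2 : h x = σ x := by
      have := congrArg σ h1
      rw [AlgEquiv.mul_apply] at this
      have e : σ (σ⁻¹ (h x)) = h x := by
        rw [← AlgEquiv.mul_apply, mul_inv_cancel, AlgEquiv.one_apply]
      rwa [e] at this
    have h3 : h (σ x) = x := by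
      have : (h * σ) x = x := by
        refine hxU _ ⟨StabT.mul_mem hh hσS, ?_⟩
        rw [hχmul _ _ hh, h0, hσχ, h11]
      rwa [AlgEquiv.mul_apply] at this
    rw [map_sub, h2, h3, neg_sub]
  have h01 : ∀ z : ZMod 2, z = 0 ∨ z = 1 := by decide
  have hsq : (x - σ x) ^ 2 ∈ L := by
    refine (mem_fixedField_iff _ _).2 fun h hh => ?_
    rw [map_pow]
    rcases h01 (χ h) with h0 | h0
    · rw [hA h hh h0]
    · rw [hB h hh h0, neg_sq]
  have hIa : ∀ τ ∈ I, τ (x - σ x) = x - σ x := by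
    intro τ hτ
    refine hA τ (hI τ hτ) ?_
    change φ _ = 0
    rw [hur τ hτ y (hκ2 τ), sub_self, hφz]
  have h5 := hσ1 _ (hL1' _ hsq hIa)
  rw [hB σ hσS hσχ] at h5
  have h6 : x - σ x = 0 := by
    have : (2 : Qb) * (x - σ x) = 0 := by linear_combination -h5
    rcases mul_eq_zero.1 this with h | h
    · exact absurd h two_ne_zero
    · exact h
  exact hxσ (sub_eq_zero.1 h6).symm

end Fermat.Agent.S17.WMW
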