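/-
S17 / WMW-SMOOTH.  Every place of `FN N`, every divisor, every point of `J_0(N)` is fixed by an open subgroup of `G_ℚ`.

`smooth_place`: Riemann-Roch gives a non constant `u` regular outside `P`; it has a pole at `P`.  `ES.Alg.exists_level u` gives a number field `K` with
`σ u = u` for `σ ∈ Fix K`.  `ord_{σP} u = ord_{σP} (σ u) = ord_P u < 0`, so `σ P = P`.
`smooth_div`: induction on the divisor (compositum).   `smooth_J`: `pic0_smul_mk`.
-/
import Fermat.Agent.S27.AR.Main
import Fermat.Agent.ES.AlgGal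
import Fermat.Agent.S37.Mod

set_option autoImplicit false

noncomputable section

namespace Fermat.Agent.S17.WMW

open ModularCurve AlgebraicCurve Fermat.Agent.S24 Fermat.Agent.S29 Fermat.Agent.S37 Fermat.Agent.S27

section General

variable {K F : Type*} [Field K] [Field F] [Algebra K F] [IsAlgClosed K] [CharZero K]

/-- a function with a pole at `Q` and nowhere else -/
theorem exists_only_pole (h : IsFF K F) (Q : Place K F) :
    ∃ y : F, Q.ord y < 0 ∧ ∀ P : Place K F, P ≠ Q → 0 ≤ P.ord y := by
  classical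
  obtain ⟨D, hD⟩ : ∃ D : Divisor K F, D = Finsupp.single Q ((genusFF K F : ℤ) + 1) := ⟨_, rfl⟩
  have hdeg : Divisor.degree D = (genusFF K F : ℤ) + 1 := by
    rw [hD, Divisor.degree_single, h.deg_eq_one]
    simp
  have hrr := rr h D
  rw [hdeg] at hrr
  have h2 : 2 ≤ Module.finrank K (riemannRochSpace D) := by
    have : (2 : ℤ) ≤ Module.finrank K (riemannRochSpace D) := by
      have h0 : (0 : ℤ) ≤ Module.finrank K (H1 D) := Int.natCast_nonneg _
      linarith
    exact_mod_cast this
  have hex : ∃ y ∈ riemannRochSpace D, ∀ c : K, y ≠ algebraMap K F c := by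
    by_contra hcon
    push Not at hcon
    have hle : riemannRochSpace D ≤ Submodule.span K {(1 : F)} := by
      intro y hy
      obtain ⟨c, hc⟩ := hcon y hy
      rw [Submodule.mem_span_singleton]
      exact ⟨c, by rw [hc, Algebra.smul_def, mul_one]⟩
    have h3 := Submodule.finrank_mono hle
    have h4 : Module.finrank K (Submodule.span K {(1 : F)}) ≤ 1 :=
      (finrank_span_le_card ({(1 : F)} : Set F)).trans (by simp)
    omega
  obtain ⟨y, hy, hyc⟩ := hex
  have hreg : ∀ P : Place K F, P ≠ Q → 0 ≤ P.ord y := by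
    intro P hP
    rw [mem_riemannRochSpace_iff] at hy
    rcases hy P with h0 | h0
    · rw [h0]; simp
    · rwa [hD, Finsupp.single_apply, if_neg (Ne.symm hP), neg_zero] at h0
  refine ⟨y, ?_, hreg⟩
  by_contra hQ
  push Not at hQ
  obtain ⟨c, hc⟩ := exists_eq_algebraMap h (y := y) fun P => by
    by_cases hP : P = Q
    · rw [hP]; exact reg_iff.2 hQ
    · exact reg_iff.2 (hreg P hP)
  exact hyc c hc

end General

variable (N : ℕ) [NeZero N]

theorem smooth_place (P : Place Kb (FN N)) :
    ∃ K : IntermediateField ℚ Qb, FiniteDimensional ℚ K ∧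
      ∀ σ ∈ K.fixingSubgroup, arithmeticGalois (modularFunctionFieldFull N) σ • P = P := by
  obtain ⟨u, hu, hreg⟩ := exists_only_pole (isFF_FN N) P
  obtain ⟨K, hK, hfix⟩ := ES.Alg.exists_level u
  refine ⟨K, hK, fun σ hσ => ?_⟩
  by_contra hne
  have h1 := hreg _ hne
  have h2 := SemilinearAut.ord_smul (arithmeticGalois (modularFunctionFieldFull N) σ) P u
  have h3 : arithmeticGalois (modularFunctionFieldFull N) σ • u = u :=
    hfix σ ((IntermediateField.mem_fixingSubgroup_iff _ _).1 hσ)
  rw [h3] at h2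
  omega

theorem smooth_div (D : Divisor Kb (FN N)) :
    ∃ K : IntermediateField ℚ Qb, FiniteDimensional ℚ K ∧
      ∀ σ ∈ K.fixingSubgroup, arithmeticGalois (modularFunctionFieldFull N) σ • D = D := by
  induction D using Finsupp.induction with
  | zero => exact ⟨⊥, inferInstance, fun σ _ => smul_zero _⟩
  | single_add v n D _ _ ih =>
      obtain ⟨K1, h1, h1'⟩ := ih
      obtain ⟨K2, h2, h2'⟩ := smooth_place N v
      refine ⟨K1 ⊔ K2, IntermediateField.finiteDimensional_sup K1 K2, fun σ hσ => ?_⟩
      rw [smul_add, SemilinearAut.smul_single,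
        h1' σ (IntermediateField.fixingSubgroup_antitone le_sup_left hσ),
        h2' σ (IntermediateField.fixingSubgroup_antitone le_sup_right hσ)]

theorem smooth_J (y : JZero N) :
    ∃ K : IntermediateField ℚ Qb, FiniteDimensional ℚ K ∧ ∀ σ ∈ K.fixingSubgroup, σ • y = y := by
  obtain ⟨D, rfl⟩ := Pic0.mk_surjective y
  obtain ⟨K, hK, h⟩ := smooth_div N (D : Divisor Kb (FN N))
  refine ⟨K, hK, fun σ hσ => ?_⟩
  rw [galois_smul_pic0_def, SemilinearAut.pic0_smul_mk]
  exact congrArg Pic0.mk (Subtype.ext (by rw [SemilinearAut.coe_degZeroSMulHom, h σ hσ]))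

end Fermat.Agent.S17.WMW
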