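/-
S17 / WMW-FIN.  `Iner S` = all conjugates of the inertia groups `Iq q`, `q ∉ S`.
* `even_ord` : `L` a number field fixed by `Iner S`, `a² = u ∈ Lˣ`, `a` fixed by `Iner S`  ⟹  `u ∈ VS 2 S_L` (all valuations outside `S` are even).
   [`w = plc L v g`, `w_v ∘ g = e · ord_w` on `L` (`D.exists_w_eq`); `e ∈ ℤ` (`S33.w_int_of_fixed`), `e · ord_w v = 1`, so `e = 1`; `w_v (g a) ∈ ℤ`.]
* `exists_L1` : the hypothesis `hfin` of `Kum.exists_kill`: `VS / squares` is finite (`C.EC` with `p = 2`, `ζ = -1`), `L1 = L(√r : r representatives)`.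
-/
import Fermat.Agent.S55.D.Ar.Plc
import Fermat.Agent.S33.Val.Cyc
import Fermat.Agent.S55.C.EC

set_option autoImplicit false

noncomputable section

namespace Fermat.Agent.S17.WMW

open Fermat.Agent.S55 Fermat.Agent.S14 Fermat.Agent.S05 NumberField
open Fermat.Agent.S55 (Dq Iq GQ Qb)

/-- all conjugates of the inertia groups outside `S` -/
def Iner (S : Finset Nat.Primes) : Set GQ :=
  {τ | ∃ q : Nat.Primes, q ∉ S ∧ ∃ g : GQ, ∃ i ∈ Iq q, τ = g * i * g⁻¹}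

theorem finAux_fixed {S : Finset Nat.Primes} {v : Nat.Primes} (hv : v ∉ S) {a : Qb}
    (ha : ∀ τ ∈ Iner S, τ a = a) (g : GQ) : ∀ σ ∈ Iq v, σ (g a) = g a := by
  intro i hi
  have h1 : (g⁻¹ * i * g⁻¹⁻¹) a = a := ha _ ⟨v, hv, g⁻¹, i, hi, rfl⟩
  rw [inv_inv, AlgEquiv.mul_apply, AlgEquiv.mul_apply] at h1
  have h2 := congrArg g h1
  have e : g (g⁻¹ (i (g a))) = i (g a) := by
    rw [← AlgEquiv.mul_apply, mul_inv_cancel, AlgEquiv.one_apply]
  rwa [e] at h2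

theorem even_ord (S : Finset Nat.Primes) (L : IntermediateField ℚ Qb) [NumberField L]
    (hL : ∀ τ ∈ Iner S, ∀ x ∈ L, τ x = x) (a : Qb) (u : (↥L)ˣ) (hau : a ^ 2 = ((u : ↥L) : Qb))
    (ha : ∀ τ ∈ Iner S, τ a = a) : u ∈ C.VS 2 (D.SF L S) := by
  intro w hw
  obtain ⟨v, g, rfl⟩ := D.exists_plc w
  have hv : v ∉ S := fun h => hw (D.plc_mem_SF_iff.2 h)
  obtain ⟨e, he, hord, -⟩ := D.exists_w_eq (F := L) v g
  have hLfix : ∀ x : (↥L)ˣ, ∃ k : ℤ, (B.wq v).w (g ((x : ↥L) : Qb)) = k := by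
    intro x
    refine S33.w_int_of_fixed v (finAux_fixed hv (fun τ hτ => hL τ hτ _ (x : ↥L).2) g) ?_
    rw [Ne, map_eq_zero]
    exact fun h => x.ne_zero (Subtype.ext h)
  -- `e` is an integer
  obtain ⟨ϖ, hϖ'⟩ := exists_ord_eq ({D.plc L v g} : Finset (Pl ↥L)) (fun _ => 1)
  have hϖ : ord (D.plc L v g) ϖ = 1 := hϖ' _ (Finset.mem_singleton_self _)
  obtain ⟨k, hk⟩ := hLfix ϖ
  rw [hord, hϖ, Int.cast_one, one_mul] at hk
  -- `e = 1`
  have hq0 : ((v : ℕ) : ↥L) ≠ 0 := by exact_mod_cast v.2.ne_zero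
  have h1 := hord (Units.mk0 _ hq0)
  have h2 : g (((Units.mk0 _ hq0 : (↥L)ˣ) : ↥L) : Qb) = ((v : ℕ) : Qb) := by
    rw [Units.val_mk0]
    simp
  rw [h2, B.wq_q, hk] at h1
  have h3 : ord (D.plc L v g) (Units.mk0 _ hq0) * k = 1 := by exact_mod_cast h1.symm
  have hk0 : 0 < k := by
    rw [hk] at he
    exact_mod_cast he
  have hk1 : k = 1 := by
    rcases Int.isUnit_iff.1 (IsUnit.of_mul_eq_one _ ((mul_comm _ _).trans h3)) with h | h
    · exact h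
    · omega
  -- `a`
  have ha0 : a ≠ 0 := by
    rintro rfl
    rw [zero_pow two_ne_zero] at hau
    exact u.ne_zero (Subtype.ext hau.symm)
  have hga0 : g a ≠ 0 := by rwa [Ne, map_eq_zero]
  obtain ⟨m, hm⟩ := S33.w_int_of_fixed v (finAux_fixed hv ha g) hga0
  have h4 := hord u
  rw [← hau, map_pow, pow_two, (B.wq v).map_mul _ _ hga0 hga0, hm, hk, hk1, Int.cast_one, mul_one] at h4
  refine ⟨m, ?_⟩
  have : ((ord (D.plc L v g) u : ℤ) : ℝ) = ((2 * m : ℤ) : ℝ) := by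
    rw [← h4]; push_cast; ring
  exact_mod_cast this

theorem exists_L1 (S : Finset Nat.Primes) (L : IntermediateField ℚ Qb) (hfd : FiniteDimensional ℚ L)
    (hL : ∀ τ ∈ Iner S, ∀ x ∈ L, τ x = x) :
    ∃ L1 : IntermediateField ℚ Qb, FiniteDimensional ℚ L1 ∧
      ∀ a : Qb, a ^ 2 ∈ L → (∀ τ ∈ Iner S, τ a = a) → a ∈ L1 := by
  classical
  have : NumberField ↥L := { to_charZero := inferInstance, to_finiteDimensional := hfd }
  have : Fact (Nat.Prime 2) := ⟨Nat.prime_two⟩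
  have hζ : IsPrimitiveRoot (-1 : 𝓞 ↥L) 2 := IsPrimitiveRoot.neg_one 0 (by norm_num)
  obtain ⟨h1, h2⟩ := C.EC hζ (D.SF L S)
  have hrel : (pows ↥L 2).relIndex (C.VS 2 (D.SF L S)) ≠ 0 := by
    rw [h2]
    exact mul_ne_zero h1 (pow_ne_zero _ two_ne_zero)
  set V := C.VS 2 (D.SF L S) with hV
  have hfi : ((pows ↥L 2).subgroupOf V).FiniteIndex := ⟨hrel⟩
  have hfq : Finite (↥V ⧸ (pows ↥L 2).subgroupOf V) := Subgroup.finite_quotient_of_finiteIndex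
  have hsq : ∀ x : Qb, ∃ z : Qb, z ^ 2 = x := fun x => IsAlgClosed.exists_pow_nat_eq x two_pos
  choose sq hsq' using hsq
  let f : (↥V ⧸ (pows ↥L 2).subgroupOf V) → Qb := fun c => sq ((((c.out : ↥V) : (↥L)ˣ) : ↥L) : Qb)
  have hRfin : Finite (Set.range f) := Set.finite_range f
  have hadj : FiniteDimensional ℚ (IntermediateField.adjoin ℚ (Set.range f)) :=
    IntermediateField.finiteDimensional_adjoin
      (fun x _ => ((AlgebraicClosure.isAlgebraic ℚ).isAlgebraic x).isIntegral)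
  refine ⟨L ⊔ IntermediateField.adjoin ℚ (Set.range f), IntermediateField.finiteDimensional_sup _ _, ?_⟩
  intro a haL ha
  rcases eq_or_ne a 0 with rfl | ha0
  · exact zero_mem _
  have hu0 : (⟨a ^ 2, haL⟩ : ↥L) ≠ 0 := fun h => pow_ne_zero 2 ha0 (congrArg Subtype.val h)
  have huV : Units.mk0 _ hu0 ∈ V := even_ord S L hL a (Units.mk0 _ hu0) rfl ha
  set c : ↥V ⧸ (pows ↥L 2).subgroupOf V := QuotientGroup.mk ⟨Units.mk0 _ hu0, huV⟩ with hc
  have h3 : (c.out)⁻¹ * ⟨Units.mk0 _ hu0, huV⟩ ∈ (pows ↥L 2).subgroupOf V := by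
    rw [← QuotientGroup.eq, hc]
    exact QuotientGroup.out_eq' _
  obtain ⟨b, hb⟩ := Subgroup.mem_subgroupOf.1 h3
  have hb' : (((b : (↥L)ˣ) : ↥L) : Qb) ^ 2 * ((((c.out : ↥V) : (↥L)ˣ) : ↥L) : Qb) = a ^ 2 := by
    have h4 : b ^ 2 * ((c.out : ↥V) : (↥L)ˣ) = Units.mk0 _ hu0 := by
      have : b ^ 2 = ((c.out : ↥V) : (↥L)ˣ)⁻¹ * Units.mk0 _ hu0 := hb
      rw [this, mul_comm, mul_inv_cancel_left]
    have h5 := congrArg (fun z : (↥L)ˣ => ((z : ↥L) : Qb)) h4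
    simpa using h5
  rw [← hsq' ((((c.out : ↥V) : (↥L)ˣ) : ↥L) : Qb), ← mul_pow] at hb'
  have hbm : (((b : (↥L)ˣ) : ↥L) : Qb) * f c ∈ L ⊔ IntermediateField.adjoin ℚ (Set.range f) :=
    mul_mem ((le_sup_left : L ≤ _) (b : ↥L).2)
      ((le_sup_right : IntermediateField.adjoin ℚ (Set.range f) ≤ _)
        (IntermediateField.subset_adjoin ℚ _ ⟨c, rfl⟩))
  rcases sq_eq_sq_iff_eq_or_eq_neg.1 hb' with h | h
  · rw [← h]; exact hbm
  · have : a = -((((b : (↥L)ˣ) : ↥L) : Qb) * f c) := by rw [h, neg_neg]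
    rw [this]; exact neg_mem hbm

end Fermat.Agent.S17.WMW
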