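/-
S17 / WMW-UNRAM.  Inertia outside `2N` fixes `y : J_0(N)` as soon as `τ y - y` is killed by `2`
(`S37.key_modular` = injectivity of the reduction on prime-to-`ℓ` torsion, `S18.KL`).
-/
import Fermat.Agent.S17.WMW.Fin
import Fermat.Agent.S37.Main
import Fermat.Agent.S18.KLFinal

set_option autoImplicit false

namespace Fermat.Agent.S17.WMW

open ModularCurve AlgebraicCurve ExtCitation
open scoped Pointwise
open Fermat.Agent.S55 (Dq Iq GQ Qb)

theorem unram (N : ℕ) [NeZero N] (S : Finset Nat.Primes)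
    (hS : ∀ q : Nat.Primes, (q : ℕ) ∣ 2 * N → q ∈ S) :
    ∀ τ ∈ Iner S, ∀ y : JZero N, (2 : ℕ) • (τ • y - y) = 0 → τ • y = y := by
  rintro _ ⟨q, hq, g, i, hi, rfl⟩ y hy
  have hq2N : ¬ (q : ℕ) ∣ 2 * N := fun h => hq (hS q h)
  have hqN : ¬ (q : ℕ) ∣ N := fun h => hq2N (h.mul_left 2)
  have hq2 : ¬ (q : ℕ) ∣ 2 := fun h => hq2N (h.mul_right N)
  have : NeZero (q : ℕ) := ⟨q.2.ne_zero⟩
  have hA : (g • primeLocalPlace q).LiesOverPrime (q : ℕ) :=
    S55.E.liesOverPrime_smul (S55.D.liesOverPrime_primeLocalPlace q) g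
  have hτ : g * i * g⁻¹ ∈ (g • primeLocalPlace q).inertiaSubgroupIn ℚ :=
    S55.E.conj_mem_inertia_smul hi g
  obtain ⟨σ, hσ⟩ := Fermat.Agent.Frob.exists_isFrobeniusAt (g • primeLocalPlace q) q.2 hA
  have := S37.key_modular N q q.2 hqN (g • primeLocalPlace q) hA
    (S18.KL N q.2 hqN _ hA) σ hσ 2 hq2 ((g * i * g⁻¹) • y - y) hy
    (AddSubgroup.subset_closure (Or.inl ⟨_, hτ, y, rfl⟩))
  exact sub_eq_zero.1 this

end Fermat.Agent.S17.WMW
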