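/-
S17 / WMW-MAIN.  Weak Mordell-Weil for `J_0(N)`: `Γ / 2Γ` is finite, `Γ = J_0(N)^{G_ℚ}`  (any `N ≥ 1`).
Wiring of `Coc.finite_quot_of_common_kernel`, `Kum.exists_kill`, `Fin.exists_L1`, `Unram.unram`, `Smooth.smooth_J`,
`PicDiv.pic0_divisible` (helper12) and the S27 count of the torsion.
-/
import Fermat.Agent.S17.WMW.Coc
import Fermat.Agent.S17.WMW.Kum
import Fermat.Agent.S17.WMW.Unram
import Fermat.Agent.S17.WMW.Smooth
import Fermat.Agent.Lib.PicDiv
import Fermat.Agent.S55.E.Lvl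

set_option autoImplicit false

namespace Fermat.Agent.S17.WMW

open ModularCurve AlgebraicCurve Fermat.Agent.S24 Fermat.Agent.S29 Fermat.Agent.S37 Fermat.Agent.S27

theorem finite_two_torsion (N : ℕ) [NeZero N] : {t : JZero N | (2 : ℕ) • t = 0}.Finite := by
  have h := lefschetz (fun F' _ _ h N hN => complex_case F' h N hN) Kb (FN N) (isFF_FN N) 2 two_pos
  have hfin : Finite (Pic0.torsion Kb (FN N) 2) :=
    Nat.finite_of_card_ne_zero (by rw [h]; exact pow_ne_zero _ two_ne_zero)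
  have h2 : {t : JZero N | (2 : ℕ) • t = 0} = (Pic0.torsion Kb (FN N) 2 : Set (JZero N)) := by
    ext t
    rw [Set.mem_ofPred_eq, SetLike.mem_coe, Pic0.mem_torsion, natCast_zsmul]
  rw [h2]
  exact hfin

/-- the primes dividing `2N` -/
noncomputable def badPrimes (N : ℕ) : Finset Nat.Primes :=
  (2 * N).primeFactors.subtype Nat.Prime

theorem mem_badPrimes {N : ℕ} [NeZero N] (q : Nat.Primes) (h : (q : ℕ) ∣ 2 * N) : q ∈ badPrimes N := by
  refine Finset.mem_subtype.2 ?_
  rw [Nat.mem_primeFactors]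
  exact ⟨q.2, h, mul_ne_zero two_ne_zero (NeZero.ne N)⟩

theorem wmw_main (N : ℕ) [NeZero N] :
    Finite (↥(FixedPoints.addSubgroup ((AlgebraicClosure ℚ) ≃ₐ[ℚ] (AlgebraicClosure ℚ)) (JZero N)) ⧸
      (zsmulAddGroupHom
        (α := ↥(FixedPoints.addSubgroup ((AlgebraicClosure ℚ) ≃ₐ[ℚ] (AlgebraicClosure ℚ)) (JZero N)))
        2).range) := by
  obtain ⟨K, hK, hkill⟩ := exists_kill (J := JZero N) (Iner (badPrimes N)) (finite_two_torsion N)
    (smooth_J N) (unram N (badPrimes N) (fun q h => mem_badPrimes q h))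
    (fun L hL hI => exists_L1 (badPrimes N) L hL hI)
  exact finite_quot_of_common_kernel (finite_two_torsion N)
    (fun c => PicDiv.pic0_divisible (isFF_FN N) 2 two_pos c) K.fixingSubgroup
    (S55.E.finiteIndex_fixingSubgroup K hK) hkill

end Fermat.Agent.S17.WMW
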